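import Fermat.Agent.RegularData.PrincipalPrimes
import Mathlib.NumberTheory.NumberField.ClassNumber
import Mathlib.NumberTheory.NumberField.Cyclotomic.Ideal
import Mathlib.NumberTheory.NumberField.Cyclotomic.PID
import Mathlib.Analysis.Real.Pi.Bounds

/-!
# `ℤ[ζ_p]` is a principal ideal domain for `p = 5, 7, 11, 13`

A Minkowski bound reduces this to the explicit principal primes of `PrincipalPrimes`
(`isPrincipalIdealRing_cyclotomic`); it gives the regularity statements `regular_five`, ...,
`regular_thirteen`.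
-/

set_option autoImplicit false

open NumberField Ideal Nat Module InfinitePlace
open scoped Real

namespace FLTAgent.RegularData

/-- Minkowski + Galois criterion for `ℤ[ζ_p]`: only the primes in `S` need to be checked, the other
primes up to the bound having too big a residue degree. -/
theorem isPrincipalIdealRing_cyclotomic {p : ℕ} [hp : Fact p.Prime] (K : Type*) [Field K]
    [NumberField K] [IsCyclotomicExtension {p} ℚ K] (N : ℕ) (hN : N < 512) (S : List ℕ)
    (hM : (4 / π) ^ ((p - 1) / 2) *
      ((((p - 1).factorial : ℕ) : ℝ) / ((p - 1 : ℕ) : ℝ) ^ (p - 1) * √((p : ℝ) ^ (p - 2)))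
        < (N : ℝ) + 1)
    (hp2 : 2 < p)
    (hsmall : ∀ q < N + 1, 2 ≤ q → q = p ∨ q ∈ S ∨
      ∀ k < 9, 0 < k → q ^ k % p = 1 → N < q ^ k)
    (hS : ∀ q ∈ S, q.Prime → ∃ P ∈ primesOver (span {(q : ℤ)}) (𝓞 K), Submodule.IsPrincipal P) :
    IsPrincipalIdealRing (𝓞 K) := by
  have : IsGalois ℚ K := IsCyclotomicExtension.isGalois {p} ℚ K
  apply RingOfIntegers.isPrincipalIdealRing_of_isPrincipal_of_lt_or_isPrincipal_of_mem_primesOver_of_mem_Icc
  intro q hq hqp
  set b := ⌊(4 / π) ^ nrComplexPlaces K * (((finrank ℚ K).factorial : ℕ) /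
    ((finrank ℚ K : ℕ) : ℝ) ^ (finrank ℚ K) * √|(discr K : ℝ)|)⌋₊ with hb
  have hbN : b ≤ N := by
    rw [hb, IsCyclotomicExtension.Rat.nrComplexPlaces_eq_totient_div_two p,
      IsCyclotomicExtension.Rat.finrank (k := p) K, IsCyclotomicExtension.Rat.discr_prime p K,
      Nat.totient_prime hp.out]
    refine Nat.le_of_lt_succ ((Nat.floor_lt (by positivity)).mpr ?_)
    simpa [abs_mul, abs_pow] using hM
  have hqb : q ≤ b := (Finset.mem_Icc.mp hq).2
  by_cases hqS : q ∈ S
  · obtain ⟨P, hP, h⟩ := hS q hqS hqp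
    exact ⟨P, hP, Or.inr h⟩
  have : Fact q.Prime := ⟨hqp⟩
  have hmax : (span {(q : ℤ)}).IsMaximal :=
    ((span_singleton_prime (by exact_mod_cast hqp.ne_zero)).mpr
      (Nat.prime_iff_prime_int.mp hqp)).isMaximal (by simp [hqp.ne_zero])
  obtain ⟨⟨P, hP1, hP2⟩⟩ := (span {(q : ℤ)}).nonempty_primesOver (S := 𝓞 K)
  by_cases hqp' : q = p
  · subst hqp'
    refine ⟨P, ⟨hP1, hP2⟩, Or.inr ?_⟩
    have h := IsCyclotomicExtension.Rat.eq_span_zeta_sub_one_of_liesOver' q K
      (IsCyclotomicExtension.zeta_spec q ℚ K) P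
    rw [h]
    exact ⟨_, rfl⟩
  rcases hsmall q (by omega) hqp.two_le with h | h | h
  · exact absurd h hqp'
  · exact absurd h hqS
  · refine ⟨P, ⟨hP1, hP2⟩, Or.inl ?_⟩
    have hqm : ¬ q ∣ p := fun hd => hqp' ((Nat.prime_dvd_prime_iff_eq hqp hp.out).mp hd)
    rw [IsCyclotomicExtension.Rat.inertiaDeg_eq_of_not_dvd q K P hqm]
    set f := orderOf (q : ZMod p) with hf
    have hpow : (q : ZMod p) ^ f = 1 := pow_orderOf_eq_one _
    have hmod : q ^ f % p = 1 := by
      have h1 : ((q ^ f : ℕ) : ZMod p) = ((1 : ℕ) : ZMod p) := by push_cast; exact hpow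
      have := (ZMod.natCast_eq_natCast_iff' (q ^ f) 1 p).mp h1
      rwa [Nat.mod_eq_of_lt hp.out.one_lt] at this
    have hf0 : 0 < f := by
      refine orderOf_pos_iff.mpr ?_
      exact isOfFinOrder_iff_isUnit.mpr ((ZMod.isUnit_iff_coprime q p).mpr
        ((Nat.coprime_primes hqp hp.out).mpr hqp'))
    rcases Nat.lt_or_ge f 9 with h9 | h9
    · exact lt_of_le_of_lt hbN (h f h9 hf0 hmod)
    · calc b ≤ N := hbN
        _ < 2 ^ 9 := by norm_num; omega
        _ ≤ 2 ^ f := Nat.pow_le_pow_right (by norm_num) h9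
        _ ≤ q ^ f := Nat.pow_le_pow_left hqp.two_le f

theorem minkowski_le (k : ℕ) {F D c : ℝ} (hF : 0 ≤ F) (hD : √D ≤ c) :
    (4 / π) ^ k * (F * √D) ≤ (4 / 3.1415) ^ k * (F * c) := by
  have h : (4 : ℝ) / π ≤ 4 / 3.1415 :=
    div_le_div_of_nonneg_left (by norm_num) (by norm_num) Real.pi_gt_d4.le
  gcongr

theorem fact_prime_p7 : Fact (Nat.Prime 7) := ⟨by norm_num⟩

attribute [local instance] fact_prime_p7 fact_prime_11 fact_prime_13

set_option synthInstance.maxSize 4000 in
/-- `ℤ[ζ₇]` is principal. -/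
theorem pid_seven (K : Type*) [Field K] [NumberField K] [IsCyclotomicExtension {7} ℚ K] :
    IsPrincipalIdealRing (𝓞 K) := by
  refine isPrincipalIdealRing_cyclotomic (p := 7) K 4 (by norm_num) [] ?_ (by norm_num)
    (by decide +kernel) (by simp)
  refine (minkowski_le _ (by positivity) (c := (129.65 : ℝ))
      (Real.sqrt_le_iff.mpr ⟨by norm_num, by norm_num⟩)).trans_lt ?_
  norm_num [Nat.factorial]

set_option synthInstance.maxSize 4000 in
/-- `ℤ[ζ₁₁]` is principal. -/
theorem pid_eleven (K : Type*) [Field K] [NumberField K] [IsCyclotomicExtension {11} ℚ K] :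
    IsPrincipalIdealRing (𝓞 K) := by
  refine isPrincipalIdealRing_cyclotomic (p := 11) K 58 (by norm_num) [12, 23, 34, 45, 56] ?_
    (by norm_num) (by decide +kernel) ?_
  · refine (minkowski_le _ (by positivity) (c := (48559 : ℝ))
      (Real.sqrt_le_iff.mpr ⟨by norm_num, by norm_num⟩)).trans_lt ?_
    norm_num [Nat.factorial]
  · intro q hq hqp
    simp only [List.mem_cons, List.not_mem_nil, or_false] at hq
    rcases hq with rfl | rfl | rfl | rfl | rfl
    all_goals first
      | exact principal_11_23 K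
      | exact absurd hqp (by norm_num)

set_option synthInstance.maxSize 4000 in
/-- `ℤ[ζ₁₃]` is principal. -/
theorem pid_thirteen (K : Type*) [Field K] [NumberField K] [IsCyclotomicExtension {13} ℚ K] :
    IsPrincipalIdealRing (𝓞 K) := by
  refine isPrincipalIdealRing_cyclotomic (p := 13) K 306 (by norm_num)
    [3, 12, 14, 27, 40, 53, 66, 79, 92, 105, 118, 131, 144, 157, 170, 183, 196, 209, 222, 235,
      248, 261, 274, 287, 300] ?_ (by norm_num) (by decide +kernel) ?_
  · refine (minkowski_le _ (by positivity) (c := (1338716 : ℝ))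
      (Real.sqrt_le_iff.mpr ⟨by norm_num, by norm_num⟩)).trans_lt ?_
    norm_num [Nat.factorial]
  · intro q hq hqp
    simp only [List.mem_cons, List.not_mem_nil, or_false] at hq
    rcases hq with rfl | rfl | rfl | rfl | rfl | rfl | rfl | rfl | rfl | rfl | rfl | rfl | rfl |
      rfl | rfl | rfl | rfl | rfl | rfl | rfl | rfl | rfl | rfl | rfl | rfl
    all_goals first
      | exact principal_13_3 K
      | exact principal_13_53 K
      | exact principal_13_79 K
      | exact principal_13_131 K
      | exact principal_13_157 K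
      | exact absurd hqp (by norm_num)

/-- Regularity: a principal `p`-th power comes from a principal ideal (`p = 5`). -/
theorem regular_five (K : Type*) [Field K] [NumberField K] [IsCyclotomicExtension {5} ℚ K] :
    ∀ I : Ideal (𝓞 K), (I ^ 5).IsPrincipal → I.IsPrincipal := fun I _ => by
  have := IsCyclotomicExtension.Rat.five_pid K
  exact IsPrincipalIdealRing.principal I

/-- Regularity: a principal `p`-th power comes from a principal ideal (`p = 7`). -/
theorem regular_seven (K : Type*) [Field K] [NumberField K] [IsCyclotomicExtension {7} ℚ K] :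
    ∀ I : Ideal (𝓞 K), (I ^ 7).IsPrincipal → I.IsPrincipal := fun I _ => by
  have := pid_seven K
  exact IsPrincipalIdealRing.principal I

/-- Regularity: a principal `p`-th power comes from a principal ideal (`p = 11`). -/
theorem regular_eleven (K : Type*) [Field K] [NumberField K] [IsCyclotomicExtension {11} ℚ K] :
    ∀ I : Ideal (𝓞 K), (I ^ 11).IsPrincipal → I.IsPrincipal := fun I _ => by
  have := pid_eleven K
  exact IsPrincipalIdealRing.principal I

/-- Regularity: a principal `p`-th power comes from a principal ideal (`p = 13`). -/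
theorem regular_thirteen (K : Type*) [Field K] [NumberField K] [IsCyclotomicExtension {13} ℚ K] :
    ∀ I : Ideal (𝓞 K), (I ^ 13).IsPrincipal → I.IsPrincipal := fun I _ => by
  have := pid_thirteen K
  exact IsPrincipalIdealRing.principal I

end FLTAgent.RegularData
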