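import Fermat.Agent.RegularData.CyclotomicJet

/-!
# Kummer's lemma for `p = 5, 7, 11, 13`

A unit of `ℤ[ζ_p]` congruent to an integer modulo `p` is a `p`-th power (`kummer_five`, ...,
`kummer_thirteen`); the tables are the certificates for `kummer_of_certificate`.
-/

set_option autoImplicit false

open NumberField

namespace FLTAgent.RegularData

theorem fact_prime_five : Fact (Nat.Prime 5) := ⟨by decide⟩
theorem fact_prime_seven : Fact (Nat.Prime 7) := ⟨by decide⟩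
theorem fact_prime_eleven : Fact (Nat.Prime 11) := ⟨by decide⟩
theorem fact_prime_thirteen : Fact (Nat.Prime 13) := ⟨by decide⟩

attribute [local instance] fact_prime_five fact_prime_seven fact_prime_eleven fact_prime_thirteen

/-- Read a row-major table as a function. -/
def tableFun {p : ℕ} (t : List (List (ZMod p))) (i : ℕ) (k : ℕ) : ZMod p := (t.getD i []).getD k 0

/-- Kummer's lemma for `p = 5`. -/
theorem kummer_five (K : Type*) [Field K] [NumberField K] [IsCyclotomicExtension {5} ℚ K] :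
    ∀ u : (𝓞 K)ˣ, (∃ n : ℤ, (5 : 𝓞 K) ∣ (u : 𝓞 K) - n) → ∃ v : (𝓞 K)ˣ, u = v ^ 5 := by
  intro u hu
  exact kummer_of_certificate (p := 5) (by norm_num)
    (fun i => tableFun [[1, 4, 1], [4, 0, 3]] i)
    (fun j => tableFun [[0, 4, 0], [4, 4, 0]] j)
    (by decide +kernel) (by decide +kernel) u (by simpa using hu)

/-- Kummer's lemma for `p = 7`. -/
theorem kummer_seven (K : Type*) [Field K] [NumberField K] [IsCyclotomicExtension {7} ℚ K] :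
    ∀ u : (𝓞 K)ˣ, (∃ n : ℤ, (7 : 𝓞 K) ∣ (u : 𝓞 K) - n) → ∃ v : (𝓞 K)ˣ, u = v ^ 7 := by
  intro u hu
  exact kummer_of_certificate (p := 7) (by norm_num)
    (fun i => tableFun [[1, 6, 1, 6, 1], [5, 4, 2, 2, 3], [2, 1, 1, 3, 4]] i)
    (fun j => tableFun [[1, 1, 0, 6, 0], [3, 4, 0, 6, 0], [3, 0, 0, 3, 0]] j)
    (by decide +kernel) (by decide +kernel) u (by simpa using hu)

/-- Kummer's lemma for `p = 11`. -/
theorem kummer_eleven (K : Type*) [Field K] [NumberField K] [IsCyclotomicExtension {11} ℚ K] :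
    ∀ u : (𝓞 K)ˣ, (∃ n : ℤ, (11 : 𝓞 K) ∣ (u : 𝓞 K) - n) → ∃ v : (𝓞 K)ˣ, u = v ^ 11 := by
  intro u hu
  exact kummer_of_certificate (p := 11) (by norm_num)
    (fun i => tableFun [[1, 10, 1, 10, 1, 10, 1, 10, 1], [7, 7, 8, 1, 0, 5, 9, 6, 3],
      [2, 6, 1, 4, 7, 6, 3, 2, 1], [8, 7, 2, 7, 8, 5, 5, 10, 1], [3, 10, 0, 2, 1, 5, 6, 5, 6]] i)
    (fun j => tableFun [[5, 2, 0, 4, 0, 8, 0, 1, 0], [6, 8, 0, 0, 0, 8, 0, 1, 0],
      [7, 7, 0, 1, 0, 5, 0, 5, 0], [0, 4, 0, 3, 0, 0, 0, 4, 0], [2, 2, 0, 1, 0, 1, 0, 9, 0]] j)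
    (by decide +kernel) (by decide +kernel) u (by simpa using hu)

/-- Kummer's lemma for `p = 13`. -/
theorem kummer_thirteen (K : Type*) [Field K] [NumberField K] [IsCyclotomicExtension {13} ℚ K] :
    ∀ u : (𝓞 K)ˣ, (∃ n : ℤ, (13 : 𝓞 K) ∣ (u : 𝓞 K) - n) → ∃ v : (𝓞 K)ˣ, u = v ^ 13 := by
  intro u hu
  exact kummer_of_certificate (p := 13) (by norm_num)
    (fun i => tableFun [[1, 12, 1, 12, 1, 12, 1, 12, 1, 12, 1], [8, 2, 6, 3, 12, 0, 7, 9, 9, 8, 3],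
      [2, 3, 1, 2, 11, 1, 0, 8, 1, 9, 4], [9, 2, 12, 10, 2, 0, 12, 4, 5, 8, 5],
      [3, 12, 0, 5, 1, 1, 12, 3, 8, 2, 6], [10, 7, 4, 7, 10, 0, 7, 6, 7, 6, 7]] i)
    (fun j => tableFun [[3, 1, 0, 4, 0, 10, 0, 1, 0, 12, 0], [10, 2, 0, 10, 0, 7, 0, 11, 0, 6, 0],
      [12, 12, 0, 2, 0, 4, 0, 0, 0, 7, 0], [7, 11, 0, 9, 0, 9, 0, 6, 0, 11, 0],
      [4, 2, 0, 2, 0, 7, 0, 1, 0, 5, 0], [4, 1, 0, 2, 0, 11, 0, 1, 0, 2, 0]] j)
    (by decide +kernel) (by decide +kernel) u (by simpa using hu)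

end FLTAgent.RegularData
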