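import Fermat.Agent.RegularData.UnitsModPthPowers
import Mathlib.NumberTheory.NumberField.Cyclotomic.Basic
import Mathlib.NumberTheory.NumberField.Cyclotomic.Embeddings
import Mathlib.RingTheory.Polynomial.Cyclotomic.Expand
import Mathlib.RingTheory.RootsOfUnity.CyclotomicUnits
import Mathlib.Algebra.DualNumber

/-!
# Kummer's logarithmic derivative on the units of `ℤ[ζ_p]`

The homomorphism `ζ ↦ (1 + X) + ε` into dual numbers over `𝔽_p[X]/(X^(p-2))` gives the logarithmic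
derivative `logDeriv'`; a numerical certificate of independence of its values on cyclotomic units
implies Kummer's lemma (`kummer_of_certificate`).
-/

set_option autoImplicit false

open NumberField Polynomial DualNumber

namespace FLTAgent.RegularData

variable (p : ℕ) [hp : Fact p.Prime]

/-- `𝔽_p[X]/(X^(p-2))`. -/
abbrev JetRing : Type := (ZMod p)[X] ⧸ Ideal.span {(X : (ZMod p)[X]) ^ (p - 2)}

/-- The image of `X`. -/
noncomputable def jetX : JetRing p := Ideal.Quotient.mk _ X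

/-- The target of `ζ`: the element `(1 + X) + ε`. -/
noncomputable def jetZeta : DualNumber (JetRing p) :=
  TrivSqZeroExt.inl (1 + jetX p) + ε

theorem fst_jetZeta_pow (i : ℕ) :
    TrivSqZeroExt.fst (jetZeta p ^ i) = (1 + jetX p) ^ i := by
  simp [jetZeta, TrivSqZeroExt.fst_pow]

theorem snd_jetZeta_pow (i : ℕ) :
    TrivSqZeroExt.snd (jetZeta p ^ i) = (i : JetRing p) * (1 + jetX p) ^ (i - 1) := by
  simp [jetZeta, TrivSqZeroExt.snd_pow, Nat.pred_eq_sub_one, nsmul_eq_mul]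

theorem jetX_pow : jetX p ^ (p - 2) = 0 := by
  rw [jetX, ← map_pow, Ideal.Quotient.eq_zero_iff_mem]
  exact Ideal.subset_span rfl

theorem aeval_jetZeta_cyclotomic :
    aeval (jetZeta p) (cyclotomic p ℤ) = 0 := by
  have h : cyclotomic p (ZMod p) = (X - 1) ^ (p - 1) := by
    have := cyclotomic_mul_prime_eq_pow_of_not_dvd (ZMod p) (p := p) (n := 1)
      (by simpa using hp.out.ne_one)
    rwa [one_mul, cyclotomic_one] at this
  rw [← aeval_map_algebraMap (ZMod p), map_cyclotomic, h]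
  have h2 : jetX p ^ (p - 1) = 0 := by
    have := hp.out.two_le
    rw [show p - 1 = (p - 2) + 1 by omega, pow_succ, jetX_pow, zero_mul]
  have h3 : jetX p ^ (p - 1 - 1) = 0 := by
    rw [show p - 1 - 1 = p - 2 by omega, jetX_pow]
  ext
  · simp [jetZeta, TrivSqZeroExt.fst_pow, h2]
  · simp [jetZeta, TrivSqZeroExt.snd_pow, Nat.pred_eq_sub_one, h3]

variable {p}
variable {K : Type*} [Field K] [NumberField K] [IsCyclotomicExtension {p} ℚ K]
  {ζ : K} (hζ : IsPrimitiveRoot ζ p)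

omit [IsCyclotomicExtension {p} ℚ K] in
theorem minpoly_toInteger : minpoly ℤ hζ.toInteger = cyclotomic p ℤ := by
  rw [cyclotomic_eq_minpoly hζ hp.out.pos, ← RingOfIntegers.minpoly_coe]
  rfl

/-- The ring homomorphism `ζ ↦ (1 + X) + ε`, i.e. `x ↦ (f, f')`. -/
noncomputable def jetHom : 𝓞 K →ₐ[ℤ] DualNumber (JetRing p) :=
  hζ.integralPowerBasis.lift (jetZeta p) (by
    rw [IsPrimitiveRoot.integralPowerBasis_gen, minpoly_toInteger]
    exact aeval_jetZeta_cyclotomic p)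

theorem jetHom_zeta : jetHom hζ hζ.toInteger = jetZeta p := by
  conv_lhs => rw [← IsPrimitiveRoot.integralPowerBasis_gen hζ]
  exact PowerBasis.lift_gen _ _ _

/-- The logarithmic derivative `u ↦ u'/u`. -/
noncomputable def logDeriv' : Additive (𝓞 K)ˣ →+ JetRing p where
  toFun u := TrivSqZeroExt.snd (jetHom hζ (u.toMul : (𝓞 K)ˣ)) *
    TrivSqZeroExt.fst (jetHom hζ ((u.toMul)⁻¹ : (𝓞 K)ˣ))
  map_zero' := by simp
  map_add' u v := by
    have hu : TrivSqZeroExt.fst (jetHom hζ (u.toMul : (𝓞 K)ˣ)) *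
        TrivSqZeroExt.fst (jetHom hζ ((u.toMul)⁻¹ : (𝓞 K)ˣ)) = 1 := by
      rw [← TrivSqZeroExt.fst_mul, ← map_mul, Units.mul_inv, map_one, TrivSqZeroExt.fst_one]
    have hv : TrivSqZeroExt.fst (jetHom hζ (v.toMul : (𝓞 K)ˣ)) *
        TrivSqZeroExt.fst (jetHom hζ ((v.toMul)⁻¹ : (𝓞 K)ˣ)) = 1 := by
      rw [← TrivSqZeroExt.fst_mul, ← map_mul, Units.mul_inv, map_one, TrivSqZeroExt.fst_one]
    simp only [toMul_add, mul_inv_rev, Units.val_mul, map_mul, TrivSqZeroExt.fst_mul,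
      DualNumber.snd_mul]
    linear_combination
      (TrivSqZeroExt.snd (jetHom hζ (v.toMul : (𝓞 K)ˣ)) *
        TrivSqZeroExt.fst (jetHom hζ ((v.toMul)⁻¹ : (𝓞 K)ˣ))) * hu +
      (TrivSqZeroExt.snd (jetHom hζ (u.toMul : (𝓞 K)ˣ)) *
        TrivSqZeroExt.fst (jetHom hζ ((u.toMul)⁻¹ : (𝓞 K)ˣ))) * hv

/-- Units congruent to an integer mod `p` have zero logarithmic derivative. -/
theorem logDeriv'_eq_zero_of_congr (u : (𝓞 K)ˣ)
    (h : ∃ n : ℤ, (p : 𝓞 K) ∣ (u : 𝓞 K) - n) :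
    logDeriv' hζ (Additive.ofMul u) = 0 := by
  obtain ⟨n, c, hc⟩ := h
  have : (p : DualNumber (JetRing p)) = 0 := by
    rw [← map_natCast (algebraMap (ZMod p) (DualNumber (JetRing p))), ZMod.natCast_self, map_zero]
  have h2 := congrArg (jetHom hζ) hc
  rw [map_sub, map_mul, map_natCast, map_intCast, this, zero_mul, sub_eq_zero] at h2
  show TrivSqZeroExt.snd (jetHom hζ (u : 𝓞 K)) * _ = 0
  rw [h2]
  simp

/-- The `i`-th coefficient data: the unit `ζ (1 + ζ + ⋯ + ζ^a)` reduces to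
`∑_{t ≤ a} (1 + X)^(t+1)`. -/
noncomputable def unitPoly (a : ℕ) : (ZMod p)[X] := ∑ t ∈ Finset.range (a + 1), (1 + X) ^ (t + 1)

theorem logDeriv'_unit {a : ℕ} (u : (𝓞 K)ˣ)
    (hu : (u : 𝓞 K) = ∑ t ∈ Finset.range (a + 1), hζ.toInteger ^ (t + 1)) (g : ℕ → ZMod p)
    (hg : ∀ k < p - 2, ((∑ t ∈ Finset.range (a + 1), (t + 1) * t.choose k : ℕ) : ZMod p) =
      ∑ s ∈ Finset.range (k + 1), g s *
        ((∑ t ∈ Finset.range (a + 1), (t + 1).choose (k - s) : ℕ) : ZMod p)) :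
    logDeriv' hζ (Additive.ofMul u) =
      Ideal.Quotient.mk _ (∑ s ∈ Finset.range (p - 2), C (g s) * X ^ s) := by
  have hfst : TrivSqZeroExt.fst (jetHom hζ (u : 𝓞 K)) = Ideal.Quotient.mk _ (unitPoly a) := by
    simp only [hu, map_sum, map_pow, TrivSqZeroExt.fst_sum, jetHom_zeta, fst_jetZeta_pow]
    simp [unitPoly, jetX]
  have hsnd : TrivSqZeroExt.snd (jetHom hζ (u : 𝓞 K)) =
      Ideal.Quotient.mk _ (∑ t ∈ Finset.range (a + 1),
        ((t + 1 : ℕ) : (ZMod p)[X]) * (1 + X) ^ t) := by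
    simp only [hu, map_sum, map_pow, TrivSqZeroExt.snd_sum, jetHom_zeta, snd_jetZeta_pow]
    simp [jetX]
  have hinv : TrivSqZeroExt.fst (jetHom hζ (u : 𝓞 K)) *
      TrivSqZeroExt.fst (jetHom hζ ((u⁻¹ : (𝓞 K)ˣ) : 𝓞 K)) = 1 := by
    rw [← TrivSqZeroExt.fst_mul, ← map_mul, Units.mul_inv, map_one, TrivSqZeroExt.fst_one]
  have hkey : TrivSqZeroExt.snd (jetHom hζ (u : 𝓞 K)) =
      Ideal.Quotient.mk _ (∑ s ∈ Finset.range (p - 2), C (g s) * X ^ s) *
      TrivSqZeroExt.fst (jetHom hζ (u : 𝓞 K)) := by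
    rw [hfst, hsnd, ← map_mul, Ideal.Quotient.eq, Ideal.mem_span_singleton, X_pow_dvd_iff]
    intro k hk
    rw [coeff_sub, sub_eq_zero, coeff_mul, Finset.Nat.sum_antidiagonal_eq_sum_range_succ_mk,
      finsetSum_coeff]
    simp only [← C_eq_natCast, coeff_C_mul, coeff_one_add_X_pow]
    rw [← Finset.sum_congr rfl fun t _ => Nat.cast_mul (α := ZMod p) (t + 1) (t.choose k),
      ← Nat.cast_sum, hg k hk]
    refine Finset.sum_congr rfl fun s hs => ?_
    have hs' : s < p - 2 := by rw [Finset.mem_range] at hs; omega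
    rw [finsetSum_coeff, Finset.sum_eq_single s (fun b _ hb => by simp [coeff_X_pow, Ne.symm hb])
      (fun h => absurd (Finset.mem_range.mpr hs') h), coeff_C_mul, coeff_X_pow, if_pos rfl, mul_one,
      unitPoly, finsetSum_coeff]
    simp [coeff_one_add_X_pow]
  show TrivSqZeroExt.snd (jetHom hζ (u : 𝓞 K)) *
    TrivSqZeroExt.fst (jetHom hζ ((u⁻¹ : (𝓞 K)ˣ) : 𝓞 K)) = _
  rw [hkey, mul_assoc, hinv, mul_one]

/-- Kummer's lemma, given a numerical certificate of independence of the logarithmic derivatives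
of the cyclotomic units. -/
theorem kummer_of_certificate (hp2 : p ≠ 2) (g : Fin ((p - 1) / 2) → ℕ → ZMod p)
    (L : Fin ((p - 1) / 2) → ℕ → ZMod p)
    (hg : ∀ i : Fin ((p - 1) / 2), ∀ k < p - 2,
      ((∑ t ∈ Finset.range ((i : ℕ) + 1), (t + 1) * t.choose k : ℕ) : ZMod p) =
      ∑ s ∈ Finset.range (k + 1), g i s *
        ((∑ t ∈ Finset.range ((i : ℕ) + 1), (t + 1).choose (k - s) : ℕ) : ZMod p))
    (hL : ∀ i j : Fin ((p - 1) / 2),
      ∑ k ∈ Finset.range (p - 2), L j k * g i k = if i = j then 1 else 0)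
    (u : (𝓞 K)ˣ) (hu : ∃ n : ℤ, (p : 𝓞 K) ∣ (u : 𝓞 K) - n) :
    ∃ v : (𝓞 K)ˣ, u = v ^ p := by
  have hζ : IsPrimitiveRoot (IsCyclotomicExtension.zeta p ℚ K) p :=
    IsCyclotomicExtension.zeta_spec p ℚ K
  have hp3 : 3 ≤ p := by have := hp.out.two_le; omega
  have hrank : NumberField.Units.rank K + 1 = (p - 1) / 2 := by
    rw [NumberField.Units.rank, InfinitePlace.card_eq_nrRealPlaces_add_nrComplexPlaces,
      IsCyclotomicExtension.Rat.nrRealPlaces_eq_zero (n := p) K (by omega),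
      IsCyclotomicExtension.Rat.nrComplexPlaces_eq_totient_div_two p,
      Nat.totient_prime hp.out]
    omega
  have hunit : ∀ i : Fin ((p - 1) / 2),
      IsUnit (∑ t ∈ Finset.range ((i : ℕ) + 1), hζ.toInteger ^ (t + 1)) := by
    intro i
    have hζ' := hζ.toInteger_isPrimitiveRoot
    simp_rw [pow_succ']
    rw [← Finset.mul_sum]
    refine (hζ'.isUnit (by omega)).mul (hζ'.geom_sum_isUnit (by omega) ?_)
    have := i.isLt
    exact Nat.Coprime.symm <| hp.out.coprime_iff_not_dvd.mpr fun h =>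
      absurd (Nat.le_of_dvd (by omega) h) (by omega)
  refine eq_pow_prime_of_independent (logDeriv' hζ) hrank (fun i => (hunit i).unit) ?_ u
    (logDeriv'_eq_zero_of_congr hζ u hu)
  intro e he
  have h1 : ∀ i : Fin ((p - 1) / 2), e i • logDeriv' hζ (Additive.ofMul (hunit i).unit) =
      Ideal.Quotient.mk _ (C (e i) * ∑ s ∈ Finset.range (p - 2), C (g i s) * X ^ s) := by
    intro i
    rw [logDeriv'_unit hζ _ (hunit i).unit_spec (g i) (hg i), ← smul_eq_C_mul]
    rfl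
  rw [Finset.sum_congr rfl fun i _ => h1 i, ← map_sum, Ideal.Quotient.eq_zero_iff_mem,
    Ideal.mem_span_singleton, X_pow_dvd_iff] at he
  have h2 : ∀ k ∈ Finset.range (p - 2), ∑ i, e i * g i k = 0 := by
    intro k hk
    have h := he k (Finset.mem_range.mp hk)
    simp only [finsetSum_coeff, coeff_C_mul, coeff_X_pow, mul_ite, mul_one, mul_zero,
      Finset.sum_ite_eq, hk, if_true] at h
    exact h
  funext j
  calc e j = ∑ i, e i * (if i = j then (1 : ZMod p) else 0) := by simp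
    _ = ∑ i, e i * ∑ k ∈ Finset.range (p - 2), L j k * g i k := by simp_rw [hL]
    _ = ∑ k ∈ Finset.range (p - 2), L j k * ∑ i, e i * g i k := by
        simp_rw [Finset.mul_sum]
        rw [Finset.sum_comm]
        exact Finset.sum_congr rfl fun k _ => Finset.sum_congr rfl fun i _ => by ring
    _ = 0 := Finset.sum_eq_zero fun k hk => by rw [h2 k hk, mul_zero]

end FLTAgent.RegularData
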