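import Mathlib.NumberTheory.NumberField.Cyclotomic.Basic
import Mathlib.RingTheory.AdjoinRoot
import Mathlib.Algebra.Polynomial.SpecificDegree
import Mathlib.Tactic.ComputeDegree
import Mathlib.Tactic.NormNum.Prime

/-!
# Principal primes of `ℤ[ζ_p]` from explicit certificates (`p = 11, 13`)

`exists_principal_primesOver` turns a factor of `Φ_p` modulo `q` and a generator into a principal
prime over `q`; the instances `principal_11_23`, ..., `principal_13_157` serve `ClassNumber`.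
-/

set_option autoImplicit false

open NumberField Polynomial Ideal

namespace FLTAgent.RegularData

theorem exists_isPrimitiveRoot_ringOfIntegers (p : ℕ) [NeZero p] (K : Type*) [Field K]
    [NumberField K] [IsCyclotomicExtension {p} ℚ K] : ∃ z : 𝓞 K, IsPrimitiveRoot z p :=
  ⟨_, (IsCyclotomicExtension.zeta_spec p ℚ K).toInteger_isPrimitiveRoot⟩

/-- If `α` divides `q` and `g(ζ)`, lies in `(q, g(ζ))`, and `g` is irreducible mod `q` dividing
`Φ_p` mod `q`, then `(α)` is a prime over `q`. -/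
theorem exists_principal_primesOver {p q : ℕ} [hp : Fact p.Prime] [hq : Fact q.Prime]
    {K : Type*} [Field K] [NumberField K] [IsCyclotomicExtension {p} ℚ K] {z : 𝓞 K}
    (hz : IsPrimitiveRoot z p) (g : ℤ[X]) (α : 𝓞 K)
    (hirr : Irreducible (g.map (Int.castRingHom (ZMod q))))
    (hβ : ∃ β, α * β = (q : 𝓞 K)) (hγ : ∃ γ, α * γ = aeval z g)
    (hα : ∃ w v, α = aeval z g * w + (q : 𝓞 K) * v)
    (hcyc : ∀ (A : Type) [CommRing A] (x : A), aeval x g = 0 → (q : A) = 0 →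
      ∑ i ∈ Finset.range p, x ^ i = 0) :
    ∃ P ∈ primesOver (span {(q : ℤ)}) (𝓞 K), Submodule.IsPrincipal P := by
  have := Fact.mk hirr
  have hzK : IsPrimitiveRoot (z : K) p := hz.map_of_injective RingOfIntegers.coe_injective
  let r : AdjoinRoot (g.map (Int.castRingHom (ZMod q))) := AdjoinRoot.root _
  have hr : ∀ f : ℤ[X], aeval r f = AdjoinRoot.mk _ (f.map (Int.castRingHom (ZMod q))) := by
    intro f
    rw [← AdjoinRoot.aeval_eq]
    exact (aeval_map_algebraMap (ZMod q) r f).symm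
  have hrg : aeval r g = 0 := by rw [hr, AdjoinRoot.mk_self]
  have hrq : (q : AdjoinRoot (g.map (Int.castRingHom (ZMod q)))) = 0 := by
    rw [← map_natCast (algebraMap (ZMod q) _) q, ZMod.natCast_self, map_zero]
  have hmin : aeval r (minpoly ℤ hzK.integralPowerBasis.gen) = 0 := by
    have h : minpoly ℤ hzK.toInteger = cyclotomic p ℤ := by
      rw [cyclotomic_eq_minpoly hzK hp.out.pos, ← RingOfIntegers.minpoly_coe]
      rfl
    rw [IsPrimitiveRoot.integralPowerBasis_gen, h, cyclotomic_prime]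
    simpa using hcyc _ r hrg hrq
  let ψ := hzK.integralPowerBasis.lift r hmin
  have hψz : ψ z = r := by
    have h1 : hzK.integralPowerBasis.gen = z := by
      rw [IsPrimitiveRoot.integralPowerBasis_gen, IsPrimitiveRoot.toInteger_coe]
    conv_lhs => rw [← h1]
    exact PowerBasis.lift_gen _ _ _
  have hψ : ∀ f : ℤ[X], ψ (aeval z f) = aeval r f := fun f => by
    rw [← aeval_algHom_apply, hψz]
  have hgen : ∀ x : 𝓞 K, ∃ f : ℤ[X], x = aeval z f := by
    intro x
    obtain ⟨f, hf⟩ := hzK.integralPowerBasis.exists_eq_aeval' x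
    exact ⟨f, by rwa [IsPrimitiveRoot.integralPowerBasis_gen, IsPrimitiveRoot.toInteger_coe] at hf⟩
  have hψs : Function.Surjective ψ := by
    intro y
    obtain ⟨f, rfl⟩ := AdjoinRoot.mk_surjective y
    obtain ⟨f, rfl⟩ := Polynomial.map_surjective _
      (ZMod.ringHom_surjective (Int.castRingHom (ZMod q))) f
    exact ⟨aeval z f, by rw [hψ, hr]⟩
  have hker : RingHom.ker ψ.toRingHom = span {α} := by
    apply le_antisymm
    · intro x hx
      obtain ⟨f, rfl⟩ := hgen x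
      rw [RingHom.mem_ker, AlgHom.toRingHom_eq_coe, RingHom.coe_coe, hψ, hr,
        AdjoinRoot.mk_eq_zero] at hx
      obtain ⟨c, hc⟩ := hx
      obtain ⟨c, rfl⟩ := Polynomial.map_surjective _
        (ZMod.ringHom_surjective (Int.castRingHom (ZMod q))) c
      have h0 : (f - g * c).map (Int.castRingHom (ZMod q)) = 0 := by
        rw [Polynomial.map_sub, Polynomial.map_mul, hc, sub_self]
      obtain ⟨e, he⟩ : C (q : ℤ) ∣ f - g * c := by
        rw [C_dvd_iff_dvd_coeff]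
        intro i
        rw [← ZMod.intCast_zmod_eq_zero_iff_dvd]
        have := congrArg (fun P => Polynomial.coeff P i) h0
        simpa only [coeff_map, Polynomial.coeff_zero, eq_intCast] using this
      obtain ⟨β, hβ⟩ := hβ
      obtain ⟨γ, hγ⟩ := hγ
      rw [show f = g * c + C (q : ℤ) * e by rw [← he]; ring, map_add, map_mul, map_mul, aeval_C,
        ← hγ]
      simp only [eq_intCast, Int.cast_natCast, ← hβ]
      exact Ideal.mem_span_singleton.mpr
        ⟨γ * aeval z c + β * aeval z e, by ring⟩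
    · obtain ⟨w, v, hwv⟩ := hα
      rw [Ideal.span_singleton_le_iff_mem, RingHom.mem_ker]
      simp [hwv, hψ, hrg, hrq]
  have hmax : (RingHom.ker ψ.toRingHom).IsMaximal :=
    RingHom.ker_isMaximal_of_surjective ψ.toRingHom hψs
  refine ⟨RingHom.ker ψ.toRingHom, ⟨hmax.isPrime, ⟨?_⟩⟩, ?_⟩
  · have hqm : (span {(q : ℤ)}).IsMaximal :=
      ((span_singleton_prime (by exact_mod_cast hq.out.ne_zero)).mpr
        (Nat.prime_iff_prime_int.mp hq.out)).isMaximal (by simp [hq.out.ne_zero])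
    refine hqm.eq_of_le (Ideal.IsPrime.ne_top inferInstance) ?_
    rw [span_singleton_le_iff_mem, under_def, mem_comap, RingHom.mem_ker]
    simp [hrq]
  · rw [hker]
    exact ⟨α, rfl⟩

theorem fact_prime_q (q : ℕ) (h : q ∈ [3, 11, 13, 23, 53, 79, 131, 157]) : Fact q.Prime := by
  simp only [List.mem_cons, List.not_mem_nil, or_false] at h
  rcases h with rfl | rfl | rfl | rfl | rfl | rfl | rfl | rfl <;> exact ⟨by norm_num⟩

theorem fact_prime_3 : Fact (Nat.Prime 3) := fact_prime_q 3 (by simp)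
theorem fact_prime_11 : Fact (Nat.Prime 11) := fact_prime_q 11 (by simp)
theorem fact_prime_13 : Fact (Nat.Prime 13) := fact_prime_q 13 (by simp)
theorem fact_prime_23 : Fact (Nat.Prime 23) := fact_prime_q 23 (by simp)
theorem fact_prime_53 : Fact (Nat.Prime 53) := fact_prime_q 53 (by simp)
theorem fact_prime_79 : Fact (Nat.Prime 79) := fact_prime_q 79 (by simp)
theorem fact_prime_131 : Fact (Nat.Prime 131) := fact_prime_q 131 (by simp)
theorem fact_prime_157 : Fact (Nat.Prime 157) := fact_prime_q 157 (by simp)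

attribute [local instance] fact_prime_3 fact_prime_11 fact_prime_13 fact_prime_23 fact_prime_53
  fact_prime_79 fact_prime_131 fact_prime_157

theorem irreducible_cubic_mod_three :
    Irreducible ((X : (ZMod 3)[X]) ^ 3 + X ^ 2 + C (Int.castRingHom (ZMod 3) 2)) := by
  have hd : ((X : (ZMod 3)[X]) ^ 3 + X ^ 2 + C (Int.castRingHom (ZMod 3) 2)).natDegree = 3 := by
    compute_degree!
  refine (Polynomial.irreducible_iff_roots_eq_zero_of_degree_le_three (by omega) (by omega)).mpr ?_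
  refine Multiset.eq_zero_of_forall_notMem fun a ha => ?_
  rw [mem_roots', IsRoot.def] at ha
  obtain ⟨-, ha⟩ := ha
  simp at ha
  revert ha
  revert a
  decide

theorem principal_11_23 (K : Type*) [Field K] [NumberField K] [IsCyclotomicExtension {11} ℚ K] :
    ∃ P ∈ primesOver (span {((23 : ℕ) : ℤ)}) (𝓞 K), Submodule.IsPrincipal P := by
  obtain ⟨z, hz⟩ := exists_isPrimitiveRoot_ringOfIntegers 11 K
  have hsum := hz.geom_sum_eq_zero (by norm_num)
  simp only [Finset.sum_range_succ, Finset.sum_range_zero] at hsum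
  refine exists_principal_primesOver hz (X + C 17 : ℤ[X]) (1 + z ^ 2 + z ^ 3)
    ?_ ⟨9 - z + 5 * z ^ 2 + 6 * z ^ 3 + 10 * z ^ 4 + 3 * z ^ 5 - 2 * z ^ 6 + z ^ 7 + 13 * z ^ 8
      + 15 * z ^ 9, ?_⟩
      ⟨6 - z + 3 * z ^ 2 + 4 * z ^ 3 + 7 * z ^ 4 + 2 * z ^ 5 - 2 * z ^ 6 + 9 * z ^ 8
      + 11 * z ^ 9, ?_⟩ ⟨272 - 16 * z + z ^ 2, -201, ?_⟩ ?_
  · simp only [Polynomial.map_add, map_X, map_C]
    exact irreducible_of_degree_eq_one (by compute_degree!)
  · push_cast
    linear_combination (-14 + 13 * z + 15 * z ^ 2) * hsum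
  · simp [map_ofNat]
    linear_combination (-11 + 9 * z + 11 * z ^ 2) * hsum
  · simp [map_ofNat]
    ring
  · intro A _ x hg hq
    simp [map_ofNat] at hg
    push_cast at hq
    simp only [Finset.sum_range_succ, Finset.sum_range_zero]
    linear_combination (-111999661136 + 6588215361 * x - 387542080 * x ^ 2 + 22796593 * x ^ 3
      - 1340976 * x ^ 4 + 78881 * x ^ 5 - 4640 * x ^ 6 + 273 * x ^ 7 - 16 * x ^ 8 + x ^ 9) * hg
      + (82782358231) * hq

theorem principal_13_3 (K : Type*) [Field K] [NumberField K] [IsCyclotomicExtension {13} ℚ K] :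
    ∃ P ∈ primesOver (span {((3 : ℕ) : ℤ)}) (𝓞 K), Submodule.IsPrincipal P := by
  obtain ⟨z, hz⟩ := exists_isPrimitiveRoot_ringOfIntegers 13 K
  have hsum := hz.geom_sum_eq_zero (by norm_num)
  simp only [Finset.sum_range_succ, Finset.sum_range_zero] at hsum
  refine exists_principal_primesOver hz (X ^ 3 + X ^ 2 + C 2 : ℤ[X]) (1 - z ^ 2 - z ^ 3)
    ?_ ⟨3 - z + 2 * z ^ 2 + z ^ 3 + 2 * z ^ 5 + z ^ 7 + z ^ 8 + z ^ 10, ?_⟩
      ⟨2 - z + 2 * z ^ 2 + z ^ 3 + 2 * z ^ 5 + z ^ 7 + z ^ 8 + z ^ 10, ?_⟩ ⟨-1, 1, ?_⟩ ?_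
  · simp only [Polynomial.map_add, Polynomial.map_pow, map_X, map_C]
    exact irreducible_cubic_mod_three
  · push_cast
    linear_combination (-z) * hsum
  · simp [map_ofNat]
    linear_combination (-z) * hsum
  · simp [map_ofNat]
    ring
  · intro A _ x hg hq
    simp [map_ofNat] at hg
    push_cast at hq
    simp only [Finset.sum_range_succ, Finset.sum_range_zero]
    linear_combination (-40 + 23 * x - 14 * x ^ 2 + 9 * x ^ 3 - 4 * x ^ 4 + 3 * x ^ 5 - 2 * x ^ 6
      + x ^ 7 + x ^ 9) * hg + (27 - 15 * x + 23 * x ^ 2) * hq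

theorem principal_13_53 (K : Type*) [Field K] [NumberField K] [IsCyclotomicExtension {13} ℚ K] :
    ∃ P ∈ primesOver (span {((53 : ℕ) : ℤ)}) (𝓞 K), Submodule.IsPrincipal P := by
  obtain ⟨z, hz⟩ := exists_isPrimitiveRoot_ringOfIntegers 13 K
  have hsum := hz.geom_sum_eq_zero (by norm_num)
  simp only [Finset.sum_range_succ, Finset.sum_range_zero] at hsum
  refine exists_principal_primesOver hz (X + C 25 : ℤ[X]) (1 + z ^ 2 + z ^ 3)
    ?_ ⟨29 + 13 * z + 20 * z ^ 2 + 7 * z ^ 3 + 16 * z ^ 4 + 22 * z ^ 5 + 26 * z ^ 6 + 11 * z ^ 7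
      + z ^ 8 + 12 * z ^ 9 + 37 * z ^ 10 + 36 * z ^ 11, ?_⟩
      ⟨13 + 6 * z + 9 * z ^ 2 + 3 * z ^ 3 + 7 * z ^ 4 + 10 * z ^ 5 + 12 * z ^ 6 + 5 * z ^ 7
      + 5 * z ^ 9 + 17 * z ^ 10 + 17 * z ^ 11, ?_⟩ ⟨600 - 24 * z + z ^ 2, -283, ?_⟩ ?_
  · simp only [Polynomial.map_add, map_X, map_C]
    exact irreducible_of_degree_eq_one (by compute_degree!)
  · push_cast
    linear_combination (-24 + 37 * z + 36 * z ^ 2) * hsum
  · simp [map_ofNat]
    linear_combination (-12 + 17 * z + 17 * z ^ 2) * hsum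
  · simp [map_ofNat]
    ring
  · intro A _ x hg hq
    simp [map_ofNat] at hg
    push_cast at hq
    simp only [Finset.sum_range_succ, Finset.sum_range_zero]
    linear_combination (-2292486337515024 + 91699453500601 * x - 3667978140024 * x ^ 2
      + 146719125601 * x ^ 3 - 5868765024 * x ^ 4 + 234750601 * x ^ 5 - 9390024 * x ^ 6
      + 375601 * x ^ 7 - 15024 * x ^ 8 + 601 * x ^ 9 - 24 * x ^ 10 + x ^ 11) * hg
      + (1081361479959917) * hq

theorem principal_13_79 (K : Type*) [Field K] [NumberField K] [IsCyclotomicExtension {13} ℚ K] :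
    ∃ P ∈ primesOver (span {((79 : ℕ) : ℤ)}) (𝓞 K), Submodule.IsPrincipal P := by
  obtain ⟨z, hz⟩ := exists_isPrimitiveRoot_ringOfIntegers 13 K
  have hsum := hz.geom_sum_eq_zero (by norm_num)
  simp only [Finset.sum_range_succ, Finset.sum_range_zero] at hsum
  refine exists_principal_primesOver hz (X + C 14 : ℤ[X]) (1 + z ^ 3 - z ^ 4)
    ?_ ⟨18 + 28 * z + 16 * z ^ 2 - 17 * z ^ 3 - 9 * z ^ 4 + 13 * z ^ 5 + 34 * z ^ 6 - 7 * z ^ 7
      - 21 * z ^ 8 - 20 * z ^ 9 + 42 * z ^ 10 + 15 * z ^ 11, ?_⟩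
      ⟨3 + 5 * z + 3 * z ^ 2 - 3 * z ^ 3 - 2 * z ^ 4 + 2 * z ^ 5 + 6 * z ^ 6 - z ^ 7 - 4 * z ^ 8
      - 4 * z ^ 9 + 7 * z ^ 10 + 3 * z ^ 11, ?_⟩ ⟨2940 - 210 * z + 15 * z ^ 2 - z ^ 3, -521, ?_⟩ ?_
  · simp only [Polynomial.map_add, map_X, map_C]
    exact irreducible_of_degree_eq_one (by compute_degree!)
  · push_cast
    linear_combination (-61 + 89 * z - 12 * z ^ 2 - 15 * z ^ 3) * hsum
  · simp [map_ofNat]
    linear_combination (-11 + 15 * z - z ^ 2 - 3 * z ^ 3) * hsum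
  · simp [map_ofNat]
    ring
  · intro A _ x hg hq
    simp [map_ofNat] at hg
    push_cast at hq
    simp only [Finset.sum_range_succ, Finset.sum_range_zero]
    linear_combination (-3779594158353 + 269971011311 * x - 19283643665 * x ^ 2 + 1377403119 * x ^ 3
      - 98385937 * x ^ 4 + 7027567 * x ^ 5 - 501969 * x ^ 6 + 35855 * x ^ 7 - 2561 * x ^ 8
      + 183 * x ^ 9 - 13 * x ^ 10 + x ^ 11) * hg + (669801496417) * hq

theorem principal_13_131 (K : Type*) [Field K] [NumberField K] [IsCyclotomicExtension {13} ℚ K] :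
    ∃ P ∈ primesOver (span {((131 : ℕ) : ℤ)}) (𝓞 K), Submodule.IsPrincipal P := by
  obtain ⟨z, hz⟩ := exists_isPrimitiveRoot_ringOfIntegers 13 K
  have hsum := hz.geom_sum_eq_zero (by norm_num)
  simp only [Finset.sum_range_succ, Finset.sum_range_zero] at hsum
  refine exists_principal_primesOver hz (X + C 18 : ℤ[X]) (1 + z ^ 2 - z ^ 3)
    ?_ ⟨-13 - 5 * z - 20 * z ^ 2 - 41 * z ^ 3 - 18 * z ^ 4 - 12 * z ^ 5 - 56 * z ^ 6 - 39 * z ^ 7
      + 11 * z ^ 8 - 50 * z ^ 9 - 83 * z ^ 10 + 28 * z ^ 11, ?_⟩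
      ⟨-2 - z - 3 * z ^ 2 - 6 * z ^ 3 - 3 * z ^ 4 - 2 * z ^ 5 - 8 * z ^ 6 - 6 * z ^ 7 + z ^ 8
      - 7 * z ^ 9 - 12 * z ^ 10 + 3 * z ^ 11, ?_⟩ ⟨-342 + 19 * z - z ^ 2, 47, ?_⟩ ?_
  · simp only [Polynomial.map_add, map_X, map_C]
    exact irreducible_of_degree_eq_one (by compute_degree!)
  · push_cast
    linear_combination (-144 + 139 * z - 28 * z ^ 2) * hsum
  · simp [map_ofNat]
    linear_combination (-20 + 18 * z - 3 * z ^ 2) * hsum
  · simp [map_ofNat]
    ring
  · intro A _ x hg hq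
    simp [map_ofNat] at hg
    push_cast at hq
    simp only [Finset.sum_range_succ, Finset.sum_range_zero]
    linear_combination (-60885862180325 + 3382547898907 * x - 187919327717 * x ^ 2
      + 10439962651 * x ^ 3 - 579997925 * x ^ 4 + 32222107 * x ^ 5 - 1790117 * x ^ 6 + 99451 * x ^ 7
      - 5525 * x ^ 8 + 307 * x ^ 9 - 17 * x ^ 10 + x ^ 11) * hg + (8365996330121) * hq

theorem principal_13_157 (K : Type*) [Field K] [NumberField K] [IsCyclotomicExtension {13} ℚ K] :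
    ∃ P ∈ primesOver (span {((157 : ℕ) : ℤ)}) (𝓞 K), Submodule.IsPrincipal P := by
  obtain ⟨z, hz⟩ := exists_isPrimitiveRoot_ringOfIntegers 13 K
  have hsum := hz.geom_sum_eq_zero (by norm_num)
  simp only [Finset.sum_range_succ, Finset.sum_range_zero] at hsum
  refine exists_principal_primesOver hz (X + C 90 : ℤ[X]) (1 + z ^ 2 - z ^ 3 + z ^ 4)
    ?_ ⟨-11 - 51 * z - 68 * z ^ 2 - 87 * z ^ 3 - 99 * z ^ 4 - 57 * z ^ 5 - 47 * z ^ 6 - 82 * z ^ 7
      - 38 * z ^ 8 - 35 * z ^ 9 - 124 * z ^ 10 - 48 * z ^ 11, ?_⟩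
      ⟨-6 - 29 * z - 39 * z ^ 2 - 50 * z ^ 3 - 57 * z ^ 4 - 33 * z ^ 5 - 27 * z ^ 6 - 47 * z ^ 7
      - 22 * z ^ 8 - 20 * z ^ 9 - 71 * z ^ 10 - 28 * z ^ 11, ?_⟩
      ⟨-737190 + 8191 * z - 91 * z ^ 2 + z ^ 3, 422593, ?_⟩ ?_
  · simp only [Polynomial.map_add, map_X, map_C]
    exact irreducible_of_degree_eq_one (by compute_degree!)
  · push_cast
    linear_combination (-168 + 117 * z - 28 * z ^ 2 - 48 * z ^ 3) * hsum
  · simp [map_ofNat]
    linear_combination (-96 + 66 * z - 15 * z ^ 2 - 28 * z ^ 3) * hsum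
  · simp [map_ofNat]
    ring
  · intro A _ x hg hq
    simp [map_ofNat] at hg
    push_cast at hq
    simp only [Finset.sum_range_succ, Finset.sum_range_zero]
    linear_combination (-3103621280010989010989 + 34484680889010989011 * x
      - 383163120989010989 * x ^ 2 + 4257368010989011 * x ^ 3 - 47304089010989 * x ^ 4
      + 525600989011 * x ^ 5 - 5840010989 * x ^ 6 + 64889011 * x ^ 7 - 720989 * x ^ 8 + 8011 * x ^ 9
      - 89 * x ^ 10 + x ^ 11) * hg + (1779145956694197522223) * hq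

end FLTAgent.RegularData
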