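import Mathlib.NumberTheory.NumberField.Units.DirichletTheorem
import Mathlib.LinearAlgebra.FiniteDimensional.Basic
import Mathlib.Algebra.Field.ZMod

/-!
# Units of a number field modulo `p`-th powers

The unit group is generated by `rank + 1` units, so a homomorphism to a `ZMod p`-module which is
injective on the span of that many units has only `p`-th powers in its kernel
(`eq_pow_prime_of_independent`).
-/

set_option autoImplicit false

open NumberField NumberField.Units

namespace FLTAgent.RegularData

/-- Dirichlet: the units are generated by `rank K + 1` units. -/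
theorem exists_unit_generators (K : Type*) [Field K] [NumberField K] :
    ∃ c : Option (Fin (rank K)) → (𝓞 K)ˣ, ∀ u : (𝓞 K)ˣ,
      ∃ e : Option (Fin (rank K)) → ℤ, u = ∏ i, c i ^ e i := by
  obtain ⟨g, hg⟩ := IsCyclic.exists_zpow_surjective (G := torsion K)
  refine ⟨fun i => i.elim (g : (𝓞 K)ˣ) (fundSystem K), fun u => ?_⟩
  obtain ⟨⟨t, f⟩, h, -⟩ := exist_unique_eq_mul_prod K u
  obtain ⟨k, hk⟩ := hg t
  refine ⟨fun i => i.elim k f, ?_⟩
  rw [Fintype.prod_option, h, ← hk]
  simp

/-- If `Φ` kills nothing on the span of `m` units, `m` being the number of generators of the unit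
group, then the kernel of `Φ` consists of `p`-th powers. -/
theorem eq_pow_prime_of_independent {K : Type*} [Field K] [NumberField K]
    {p : ℕ} [Fact p.Prime] {B : Type*} [AddCommGroup B] [Module (ZMod p) B]
    (Φ : Additive (𝓞 K)ˣ →+ B) {m : ℕ} (hm : rank K + 1 = m) (v : Fin m → (𝓞 K)ˣ)
    (hv : ∀ e : Fin m → ZMod p, ∑ i, e i • Φ (Additive.ofMul (v i)) = 0 → e = 0)
    (u : (𝓞 K)ˣ) (hu : Φ (Additive.ofMul u) = 0) :
    ∃ w : (𝓞 K)ˣ, u = w ^ p := by
  obtain ⟨c, hc⟩ := exists_unit_generators K
  let T : (Option (Fin (rank K)) → ZMod p) →ₗ[ZMod p] B :=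
    Fintype.linearCombination (ZMod p) (fun i => Φ (Additive.ofMul (c i)))
  have hT : ∀ e : Option (Fin (rank K)) → ℤ,
      Φ (Additive.ofMul (∏ i, c i ^ e i)) = T (fun i => (e i : ZMod p)) := by
    intro e
    rw [ofMul_prod, map_sum, Fintype.linearCombination_apply]
    refine Finset.sum_congr rfl fun i _ => ?_
    rw [ofMul_zpow, map_zsmul, Int.cast_smul_eq_zsmul]
  choose f hf using fun j => hc (v j)
  let A : (Fin m → ZMod p) →ₗ[ZMod p] (Option (Fin (rank K)) → ZMod p) :=
    Fintype.linearCombination (ZMod p) (fun j => fun i => (f j i : ZMod p))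
  have hTA : Function.Injective (T ∘ₗ A) := by
    rw [← LinearMap.ker_eq_bot, LinearMap.ker_eq_bot']
    intro e he
    refine hv e ?_
    rw [LinearMap.comp_apply, show A e = ∑ j, e j • fun i => (f j i : ZMod p) from
      Fintype.linearCombination_apply _ _ _, map_sum] at he
    simp_rw [map_smul, ← hT, ← hf] at he
    exact he
  have hA : Function.Surjective A := by
    refine ((Fintype.bijective_iff_injective_and_card A).mpr ⟨?_, ?_⟩).2
    · exact Function.Injective.of_comp (f := T) (by simpa using hTA)
    · simp only [Fintype.card_fun, Fintype.card_fin, Fintype.card_option, hm]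
  obtain ⟨e, rfl⟩ := hc u
  obtain ⟨d, hd⟩ := hA (fun i => (e i : ZMod p))
  have hd0 : d = 0 := hTA (by rw [LinearMap.comp_apply, hd, ← hT, hu, map_zero])
  have he : ∀ i, (p : ℤ) ∣ e i := by
    intro i
    rw [← ZMod.intCast_zmod_eq_zero_iff_dvd]
    have := congrFun hd i
    rw [hd0, map_zero] at this
    exact this.symm
  choose k hk using he
  refine ⟨∏ i, c i ^ k i, ?_⟩
  rw [← Finset.prod_pow]
  refine Finset.prod_congr rfl fun i _ => ?_
  rw [hk i, mul_comm, zpow_mul, zpow_natCast]

end FLTAgent.RegularData
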